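import Fermat.Agent.LT.T2.H255.UnramHecke

/-!
# Row LT, tower T2, station T2.10 (SMO), leaf T2.10.07 `UnramTorusC` (helper255)

OFF-MAIN.  `unramTorusC255 K : T2.H941.UnramTorusC K` (UNCONDITIONAL) and
`leaf07_255 K : T2.H941.Leaf07 K`, VERBATIM against `LT/T2/H941/SmoSpec.lean` (helper941).

With `m = d - log |y|_v`: the Whittaker coefficient on the torus at `v` is `λ_m` times its value
at the conductor point, `λ_m = 0` for `m < 0`, `λ_0 = 1`, `q λ_{m+1} = √q a λ_m - b λ_{m-1}`.
-/

set_option autoImplicit false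

open IsDedekindDomain NumberField MeasureTheory AutomorphicForm
open IsDedekindDomain.HeightOneSpectrum
open Fermat.Agent.LT.H556.A0
open scoped MatrixGroups

noncomputable section

namespace Fermat.Agent.LT.T2.H255

open Fermat.Agent.LT Fermat.Agent.LT.T2.H941 Fermat.Agent.LT.H129

attribute [local instance] borelAdl255 borelSpaceAdl255

variable {K : Type} [Field K] [NumberField K] (v : HeightOneSpectrum (𝓞 K))

/-! ## 1. The recursion -/

/-- The pair `(λ_m, λ_{m-1})`. -/
def lamPair255 (q s a b : ℂ) : ℕ → ℂ × ℂ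
  | 0 => (1, 0)
  | m + 1 => ((s * a * (lamPair255 q s a b m).1 - b * (lamPair255 q s a b m).2) / q,
      (lamPair255 q s a b m).1)

/-- The function `λ` of `UnramTorusC`, as a function of `log |y|_v`. -/
def lam255 (d : ℤ) (a b : ℂ) (n : ℤ) : ℂ :=
  if n ≤ d then
    (lamPair255 (Ideal.absNorm v.asIdeal : ℂ)
      ((Real.sqrt (Ideal.absNorm v.asIdeal : ℝ) : ℝ) : ℂ) a b (d - n).toNat).1
  else 0

theorem lam255_self (d : ℤ) (a b : ℂ) : lam255 v d a b d = 1 := by
  unfold lam255
  rw [if_pos le_rfl, sub_self, Int.toNat_zero]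
  rfl

theorem absNorm_ne_zero255 : (Ideal.absNorm v.asIdeal : ℂ) ≠ 0 := by
  have h := NumberField.HeightOneSpectrum.one_lt_absNorm v
  have : Ideal.absNorm v.asIdeal ≠ 0 := by omega
  exact_mod_cast this

/-! ## 2. Valuations -/

theorem valued_mul_unif255 {π a : v.adicCompletion K}
    (hπ : Valued.v π = WithZero.exp (-1 : ℤ)) {n : ℤ} (ha : Valued.v a = WithZero.exp n) :
    Valued.v (a * π) = WithZero.exp (n - 1) := by
  rw [map_mul, ha, hπ, ← WithZero.exp_add]
  rfl

theorem valued_mul_unif_inv255 {π a : v.adicCompletion K}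
    (hπ : Valued.v π = WithZero.exp (-1 : ℤ)) {n : ℤ} (ha : Valued.v a = WithZero.exp n) :
    Valued.v (a * π⁻¹) = WithZero.exp (n + 1) := by
  rw [map_mul, map_inv₀, ha, hπ, ← WithZero.exp_neg, ← WithZero.exp_add]
  simp

/-! ## 3. The character sum -/

section Sum

variable {v}
variable {ψ : AddChar (Adl K) Circle}

theorem charSum255 [Fintype (𝓞 K ⧸ v.asIdeal)] {d : ℤ} (hd : IsCondExp ψ v d)
    {a : v.adicCompletion K} (ha : Valued.v a ≤ WithZero.exp d) :
    (∑ c : 𝓞 K ⧸ v.asIdeal, ((ψ (locAd255 v (a * rep129 v c)) : Circle) : ℂ))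
      = (Ideal.absNorm v.asIdeal : ℂ) := by
  have h1 : ∀ c : 𝓞 K ⧸ v.asIdeal, ((ψ (locAd255 v (a * rep129 v c)) : Circle) : ℂ) = 1 := by
    intro c
    have hle : Valued.v ((locAd255 v (a * rep129 v c)).2 v) ≤ WithZero.exp d := by
      rw [locAd255_same, map_mul]
      have hr : Valued.v (rep129 v c) ≤ 1 := (mem_adicCompletionIntegers _ _ _).mp (rep129_mem v c)
      calc Valued.v a * Valued.v (rep129 v c) ≤ Valued.v a * 1 := by gcongr
        _ = Valued.v a := mul_one _
        _ ≤ WithZero.exp d := ha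
    rw [hd.1 _ (isLocAdeleAt_locAd255 v _) hle]
    rfl
  simp only [h1, Finset.sum_const, Finset.card_univ, card_residue255, nsmul_eq_mul, mul_one]

end Sum

/-! ## 4. The recursion for the Whittaker coefficient -/

section Rec

variable {v}
variable {ψ : AddChar (Adl K) Circle} {ν : Measure (Adl K)} {D : Set (Adl K)}
  (hW : IsWhitData ψ ν D) {Φ : G K → ℂ} (hc : Continuous Φ)
  (hb : ∃ C : ℝ, ∀ g : G K, ‖Φ g‖ ≤ C)
  (hl : ∀ (γ : GL (Fin 2) K) (g : G K), Φ (T1.ratG K γ * g) = Φ g)
  (hK : IsKv v Φ) {g : G K} (hg : TrivAtFin v g)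

include hW hc hb hl hK hg in
theorem wv_rec255 {d : ℤ} (hd : IsCondExp ψ v d) {ae be : ℂ} (hE : IsHeckeEigenAt Φ v ae be)
    {a₀ : v.adicCompletion K} (ha₀ : a₀ ≠ 0) (hv₀ : Valued.v a₀ = WithZero.exp d) (m : ℕ) :
    ∀ a : v.adicCompletion K, a ≠ 0 →
      (Valued.v a = WithZero.exp (d - m) →
        wh ψ ν D Φ (tv255 v a * g)
          = (lamPair255 (Ideal.absNorm v.asIdeal : ℂ)
              ((Real.sqrt (Ideal.absNorm v.asIdeal : ℝ) : ℝ) : ℂ) ae be m).1
            * wh ψ ν D Φ (tv255 v a₀ * g)) ∧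
      (Valued.v a = WithZero.exp (d - m + 1) →
        wh ψ ν D Φ (tv255 v a * g)
          = (lamPair255 (Ideal.absNorm v.asIdeal : ℂ)
              ((Real.sqrt (Ideal.absNorm v.asIdeal : ℝ) : ℝ) : ℂ) ae be m).2
            * wh ψ ν D Φ (tv255 v a₀ * g)) := by
  classical
  haveI : Finite (𝓞 K ⧸ v.asIdeal) := finite_residue255 v
  letI : Fintype (𝓞 K ⧸ v.asIdeal) := Fintype.ofFinite _
  obtain ⟨π, hπ⟩ := exists_unif129 v
  have hπ0 := unif_ne_zero129 v hπ
  induction m with
  | zero =>
    intro a ha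
    refine ⟨fun h => ?_, fun h => ?_⟩
    · have h' : Valued.v a = Valued.v a₀ := by
        rw [h, hv₀]; simp
      rw [wv_congr255 hK hg ha ha₀ h']
      simp [lamPair255]
    · have hlt : WithZero.exp d < Valued.v a := by
        rw [h, WithZero.exp_lt_exp]; simp
      rw [wv_vanish255 hW hl hK hg hd ha hlt]
      simp [lamPair255]
  | succ m ih =>
    intro a ha
    refine ⟨fun h => ?_, fun h => ?_⟩
    · -- the recursion at `a' = a π⁻¹`
      set a' : v.adicCompletion K := a * π⁻¹ with ha'def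
      have ha' : a' ≠ 0 := mul_ne_zero ha (inv_ne_zero hπ0)
      have hva' : Valued.v a' = WithZero.exp (d - m) := by
        rw [ha'def, valued_mul_unif_inv255 v hπ h]
        congr 1
        push_cast
        ring
      have haπ : a' * π = a := by
        rw [ha'def, mul_assoc, inv_mul_cancel₀ hπ0, mul_one]
      have hva'' : Valued.v (a' * π⁻¹) = WithZero.exp (d - m + 1) :=
        valued_mul_unif_inv255 v hπ hva'
      have hle : Valued.v a' ≤ WithZero.exp d := by
        rw [hva', WithZero.exp_le_exp]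
        omega
      have hrel := wv_hecke255 hW hc hb hl hg hE hπ ha'
      rw [charSum255 hd hle, haπ, (ih a' ha').1 hva',
        (ih (a' * π⁻¹) (mul_ne_zero ha' (inv_ne_zero hπ0))).2 hva''] at hrel
      have hq := absNorm_ne_zero255 v
      simp only [lamPair255]
      field_simp
      linear_combination hrel
    · have h' : Valued.v a = WithZero.exp (d - m) := by
        rw [h]
        congr 1
        push_cast
        ring
      rw [(ih a ha).1 h']
      simp [lamPair255]

end Rec

/-! ## 5. The leaf -/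

/-- **T2.10.07 `UnramTorusC`, unconditional.** -/
theorem unramTorusC255 (K : Type) [Field K] [NumberField K] :
    Fermat.Agent.LT.T2.H941.UnramTorusC K := by
  intro ψ ν D hW v d hd
  refine ⟨fun a b n => lam255 v d a b n, fun a b => lam255_self v d a b, ?_⟩
  intro Φ ae be hc hb hl hK hE y y₀ hy hy₀ hv₀ g hg
  rw [tor_eq_tv255 v hy, tor_eq_tv255 v hy₀]
  have hy0 := idele_comp_ne_zero255 v y
  have hy₀0 := idele_comp_ne_zero255 v y₀
  have hvy : Valued.v ((y : Adl K).2 v) ≠ 0 := (Valuation.ne_zero_iff _).mpr hy0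
  have hexp : Valued.v ((y : Adl K).2 v)
      = WithZero.exp (WithZero.log (Valued.v ((y : Adl K).2 v))) :=
    (WithZero.exp_log hvy).symm
  by_cases hn : WithZero.log (Valued.v ((y : Adl K).2 v)) ≤ d
  · have hrec := (wv_rec255 hW hc hb hl hK hg hd hE hy₀0 hv₀
      (d - WithZero.log (Valued.v ((y : Adl K).2 v))).toNat _ hy0).1 (by
        conv_lhs => rw [hexp]
        congr 1
        rw [Int.toNat_of_nonneg (by omega)]
        ring)
    rw [hrec]
    simp only [lam255, if_pos hn]
  · have hlt : WithZero.exp d < Valued.v ((y : Adl K).2 v) := by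
      rw [hexp, WithZero.exp_lt_exp]
      omega
    rw [wv_vanish255 hW hl hK hg hd hy0 hlt]
    simp only [lam255, if_neg hn, zero_mul]

/-- **T2.10.07** in the hypothesis-parametrised form of the registry. -/
theorem leaf07_255 (K : Type) [Field K] [NumberField K] :
    Fermat.Agent.LT.T2.H941.Leaf07 K :=
  fun _ => unramTorusC255 K

end Fermat.Agent.LT.T2.H255

end
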