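import Fermat.Agent.LT.T2.H255.UnramLocal

/-!
# Row LT, tower T2, station T2.10 (SMO): the Hecke relation on the torus (helper255)

OFF-MAIN.  For a function `Φ` which is continuous, bounded, left invariant under `GL₂(K)`, right
invariant under `GL₂(𝒪_v)` and a Hecke eigenfunction at `v`, the Whittaker coefficient
`a ↦ W_Φ(diag(a,1)_v g)` (`g` trivial at `v`) satisfies

* `wv_unit255`   : it depends on the valuation of `a` only;
* `wv_vanish255` : it vanishes when `ψ_v` is not trivial on `a 𝒪_v`;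
* `wv_hecke255`  : `(∑_c ψ_v(a r_c)) W(a ϖ) + b W(a ϖ⁻¹) = √q a_v W(a)`.
-/

set_option autoImplicit false

open IsDedekindDomain NumberField MeasureTheory AutomorphicForm
open IsDedekindDomain.HeightOneSpectrum
open Fermat.Agent.LT.H556.A0
open scoped MatrixGroups

noncomputable section

namespace Fermat.Agent.LT.T2.H255

open Fermat.Agent.LT Fermat.Agent.LT.T2.H941 Fermat.Agent.LT.H129

attribute [local instance] borelAdl255 borelSpaceAdl255

variable {K : Type} [Field K] [NumberField K] (v : HeightOneSpectrum (𝓞 K))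

/-! ## 1. The torus at `v` -/

open scoped Classical in
/-- `diag(a, 1)` at the place `v` (and `1` if `a = 0`). -/
def tv255 (a : v.adicCompletion K) : G K :=
  if ha : a ≠ 0 then locFin129 v (dg255 v a ha) else 1

theorem tv255_of_ne {a : v.adicCompletion K} (ha : a ≠ 0) :
    tv255 v a = locFin129 v (dg255 v a ha) := dif_pos ha

theorem tor_eq_tv255 {y : (Adl K)ˣ} (hy : IsIdeleAtFin v y) :
    tor y = tv255 v ((y : Adl K).2 v) := by
  rw [tv255_of_ne v (idele_comp_ne_zero255 v y)]
  exact tor_eq_locFin255 v hy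

theorem tv255_mul {a u : v.adicCompletion K} (ha : a ≠ 0) (hu : u ≠ 0) :
    tv255 v (a * u) = tv255 v a * locFin129 v (dg255 v u hu) := by
  rw [tv255_of_ne v (mul_ne_zero ha hu), tv255_of_ne v ha, ← map_mul]
  congr 1
  exact dg_mul_dg255 a u ha hu

theorem tv255_mul_upperU {a : v.adicCompletion K} (ha : a ≠ 0) (u : v.adicCompletion K) :
    tv255 v a * locFin129 v (upperU129 u) = T3.unip K (locAd255 v (a * u)) * tv255 v a := by
  rw [tv255_of_ne v ha, unip_locAd255, ← map_mul, ← map_mul]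
  congr 1
  exact dg_mul_upperU255 a u ha

theorem tv255_mul_upper {a p : v.adicCompletion K} (ha : a ≠ 0) (hp : p ≠ 0)
    (r : v.adicCompletion K) :
    tv255 v a * locFin129 v (mkGL129 p r 0 1 (by simpa using hp))
      = T3.unip K (locAd255 v (a * r)) * tv255 v (a * p) := by
  rw [tv255_of_ne v ha, tv255_of_ne v (mul_ne_zero ha hp), unip_locAd255, ← map_mul, ← map_mul]
  congr 1
  exact dg_mul_upper255 a r p ha hp

theorem tv255_mul_lower {a p : v.adicCompletion K} (ha : a ≠ 0) (hp : p ≠ 0) :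
    tv255 v a * locFin129 v (mkGL129 1 0 0 p (by simpa using hp))
      = tv255 v (a * p⁻¹) * locFin129 v (mkGL129 p 0 0 p (by simpa using hp)) := by
  rw [tv255_of_ne v ha, tv255_of_ne v (mul_ne_zero ha (inv_ne_zero hp)), ← map_mul, ← map_mul]
  congr 1
  exact dg_mul_lower255 a p ha hp

/-- `diag(u, 1)` is in `GL₂(𝒪_v)` for a unit `u`. -/
theorem isMaxCpt_dg255 {u : v.adicCompletion K} (hu : Valued.v u = 1) :
    IsMaxCpt129 (v.adicCompletionIntegers K) (dg255 v u (by
      intro h; rw [h, map_zero] at hu; exact zero_ne_one hu)) := by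
  have hu0 : u ≠ 0 := by
    intro h; rw [h, map_zero] at hu; exact zero_ne_one hu
  have h1 : (1 : v.adicCompletion K) ∈ v.adicCompletionIntegers K :=
    (v.adicCompletionIntegers K).one_mem
  have h0 : (0 : v.adicCompletion K) ∈ v.adicCompletionIntegers K :=
    (v.adicCompletionIntegers K).zero_mem
  have hmem : u ∈ v.adicCompletionIntegers K := by
    rw [mem_adicCompletionIntegers, hu]
  have hmem' : u⁻¹ ∈ v.adicCompletionIntegers K := by
    rw [mem_adicCompletionIntegers, map_inv₀, hu, inv_one]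
  refine ⟨isInt129_mkGL _ hmem h0 h0 h1, ?_⟩
  have hinv : (dg255 v u hu0)⁻¹ = mkGL129 u⁻¹ 0 0 1 (by simpa using hu0) := by
    rw [inv_eq_iff_mul_eq_one]
    apply ext_mat129
    simp [dg255, Matrix.one_fin_two, hu0]
  rw [hinv]
  exact isInt129_mkGL _ hmem' h0 h0 h1

/-! ## 2. The Whittaker coefficient on the torus at `v` -/

section Whit

variable {v}
variable {ψ : AddChar (Adl K) Circle} {ν : Measure (Adl K)} {D : Set (Adl K)}
  (hW : IsWhitData ψ ν D) {Φ : G K → ℂ} (hc : Continuous Φ)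
  (hb : ∃ C : ℝ, ∀ g : G K, ‖Φ g‖ ≤ C)
  (hl : ∀ (γ : GL (Fin 2) K) (g : G K), Φ (T1.ratG K γ * g) = Φ g)
  (hK : IsKv v Φ) {g : G K} (hg : TrivAtFin v g)

include hK hg in
/-- Right invariance of the Whittaker coefficient under `GL₂(𝒪_v)`, moved across `g`. -/
theorem wh_mul_maxCpt255 (x : G K) {k : GL (Fin 2) (v.adicCompletion K)}
    (hk : IsMaxCpt129 (v.adicCompletionIntegers K) k) :
    wh ψ ν D Φ (x * locFin129 v k * g) = wh ψ ν D Φ (x * g) := by
  rw [mul_assoc, locFin_comm255 v k hg, ← mul_assoc, ← wh_rt255]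
  congr 1
  funext y
  exact isKv_apply255 v hK hk y

include hK hg in
/-- The coefficient depends on the valuation only. -/
theorem wv_unit255 {a u : v.adicCompletion K} (ha : a ≠ 0) (hu : Valued.v u = 1) :
    wh ψ ν D Φ (tv255 v (a * u) * g) = wh ψ ν D Φ (tv255 v a * g) := by
  have _ := ha
  have hu0 : u ≠ 0 := by
    intro h; rw [h, map_zero] at hu; exact zero_ne_one hu
  rw [tv255_mul v ha hu0]
  exact wh_mul_maxCpt255 hK hg _ (isMaxCpt_dg255 v hu)

include hK hg in
theorem wv_congr255 {a a' : v.adicCompletion K} (ha : a ≠ 0) (ha' : a' ≠ 0)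
    (h : Valued.v a = Valued.v a') :
    wh ψ ν D Φ (tv255 v a * g) = wh ψ ν D Φ (tv255 v a' * g) := by
  have hu : Valued.v (a'⁻¹ * a) = 1 := by
    rw [map_mul, map_inv₀, h, inv_mul_cancel₀]
    exact (Valuation.ne_zero_iff _).mpr ha'
  have e : a = a' * (a'⁻¹ * a) := by
    rw [← mul_assoc, mul_inv_cancel₀ ha', one_mul]
  conv_lhs => rw [e]
  exact wv_unit255 hK hg ha' hu

include hW hl hK hg in
/-- The coefficient is multiplied by `ψ_v(a u)`, `u ∈ 𝒪_v`. -/
theorem wv_psi255 {a : v.adicCompletion K} (ha : a ≠ 0) {u : v.adicCompletion K}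
    (hu : u ∈ v.adicCompletionIntegers K) :
    wh ψ ν D Φ (tv255 v a * g)
      = ((ψ (locAd255 v (a * u)) : Circle) : ℂ) * wh ψ ν D Φ (tv255 v a * g) := by
  have h1 := wh_mul_maxCpt255 (ψ := ψ) (ν := ν) (D := D) hK hg (tv255 v a)
    (isMaxCpt129_upperU (O := v.adicCompletionIntegers K) hu)
  have h2 : wh ψ ν D Φ (tv255 v a * locFin129 v (upperU129 u) * g)
      = ((ψ (locAd255 v (a * u)) : Circle) : ℂ) * wh ψ ν D Φ (tv255 v a * g) := by
    rw [tv255_mul_upperU v ha u, mul_assoc, wh_unip_mul255 hW hl]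
  exact h1.symm.trans h2

include hW hl hK hg in
/-- **Vanishing**: the coefficient vanishes at `a` when the valuation of `a` is bigger than the
conductor exponent. -/
theorem wv_vanish255 {d : ℤ} (hd : IsCondExp ψ v d) {a : v.adicCompletion K} (ha : a ≠ 0)
    (hlt : WithZero.exp d < Valued.v a) : wh ψ ν D Φ (tv255 v a * g) = 0 := by
  obtain ⟨x, hx, hxv, hxψ⟩ := hd.2
  set u : v.adicCompletion K := a⁻¹ * x.2 v with hu
  have hau : a * u = x.2 v := by
    rw [hu, ← mul_assoc, mul_inv_cancel₀ ha, one_mul]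
  have hva : Valued.v a ≠ 0 := (Valuation.ne_zero_iff _).mpr ha
  have hle : WithZero.exp (d + 1) ≤ Valued.v a := by
    have h1 : Valued.v a = WithZero.exp (WithZero.log (Valued.v a)) :=
      (WithZero.exp_log hva).symm
    rw [h1] at hlt ⊢
    rw [WithZero.exp_lt_exp] at hlt
    rw [WithZero.exp_le_exp]
    omega
  have humem : u ∈ v.adicCompletionIntegers K := by
    rw [mem_adicCompletionIntegers, hu, map_mul, map_inv₀, hxv]
    rw [inv_mul_le_iff₀ (zero_lt_iff.mpr hva), mul_one]
    exact hle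
  have h1 := wv_psi255 hW hl hK hg ha humem
  rw [hau, ← eq_locAd255_of_isLocAdeleAt v hx] at h1
  have hne : ((ψ x : Circle) : ℂ) ≠ 1 := by
    intro h
    apply hxψ
    exact Subtype.ext (by simpa using h)
  have h2 : (1 - ((ψ x : Circle) : ℂ)) * wh ψ ν D Φ (tv255 v a * g) = 0 := by
    rw [sub_mul, one_mul, ← h1, sub_self]
  rcases mul_eq_zero.mp h2 with h3 | h3
  · exact absurd (sub_eq_zero.mp h3).symm hne
  · exact h3

end Whit

/-! ## 3. The standard Hecke coset system -/

theorem finite_residue255 : Finite (𝓞 K ⧸ v.asIdeal) := by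
  apply Nat.finite_of_card_ne_zero
  rw [← Submodule.cardQuot_apply, ← Ideal.absNorm_apply]
  exact ne_of_gt (lt_trans Nat.zero_lt_one (NumberField.HeightOneSpectrum.one_lt_absNorm v))

theorem stdHecke_injective255 {π : v.adicCompletion K}
    (hπ : Valued.v π = WithZero.exp (-1 : ℤ)) :
    Function.Injective (stdHecke129 v π (unif_ne_zero129 v hπ)) := by
  intro a b hab
  by_contra hne
  apply stdHecke129_not_int v hπ hne
  rw [hab, inv_mul_cancel]
  intro i j
  have : finComp v (1 : G K) = 1 := by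
    rw [← coe_finCompHom129, map_one]; rfl
  rw [this]
  by_cases hij : i = j
  · subst hij; simp
  · simp [hij]

open scoped Classical in
theorem stdHecke_system255 [Fintype (𝓞 K ⧸ v.asIdeal)] {π : v.adicCompletion K}
    (hπ : Valued.v π = WithZero.exp (-1 : ℤ)) :
    IsHeckeCosetSystem v (Finset.univ.image (stdHecke129 v π (unif_ne_zero129 v hπ))) := by
  classical
  refine ⟨?_, ?_, ?_⟩
  · rw [Finset.card_image_of_injective _ (stdHecke_injective255 v hπ), Finset.card_univ,
      Fintype.card_option, Ideal.absNorm_apply, Submodule.cardQuot_apply,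
      Nat.card_eq_fintype_card]
  · intro h hh
    obtain ⟨a, -, rfl⟩ := Finset.mem_image.mp hh
    exact stdHecke129_props v hπ a
  · intro h hh h' hh' hne
    obtain ⟨a, -, rfl⟩ := Finset.mem_image.mp hh
    obtain ⟨b, -, rfl⟩ := Finset.mem_image.mp hh'
    exact stdHecke129_not_int v hπ (fun e => hne (by rw [e]))

theorem isScalarUniformizerAt255 {π : v.adicCompletion K}
    (hπ : Valued.v π = WithZero.exp (-1 : ℤ)) :
    IsScalarUniformizerAt v
      (locFin129 v (mkGL129 π 0 0 π (by simpa using unif_ne_zero129 v hπ))) := by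
  refine ⟨isLocalAtFin_locFin129 v _, π, hπ, ?_⟩
  rw [finComp_locFin129, coe_mkGL129]
  ext i j
  fin_cases i <;> fin_cases j <;> simp

theorem card_residue255 [Fintype (𝓞 K ⧸ v.asIdeal)] :
    Fintype.card (𝓞 K ⧸ v.asIdeal) = Ideal.absNorm v.asIdeal := by
  rw [Ideal.absNorm_apply, Submodule.cardQuot_apply, Nat.card_eq_fintype_card]

/-! ## 4. The Hecke relation for the Whittaker coefficient -/

section Hecke

variable {v}
variable {ψ : AddChar (Adl K) Circle} {ν : Measure (Adl K)} {D : Set (Adl K)}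
  (hW : IsWhitData ψ ν D) {Φ : G K → ℂ} (hc : Continuous Φ)
  (hb : ∃ C : ℝ, ∀ g : G K, ‖Φ g‖ ≤ C)
  (hl : ∀ (γ : GL (Fin 2) K) (g : G K), Φ (T1.ratG K γ * g) = Φ g)
  {g : G K} (hg : TrivAtFin v g)

include hW hc hb in
/-- The Hecke relation, integrated. -/
theorem wh_heckeSum255 {ae be : ℂ} (hE : IsHeckeEigenAt Φ v ae be) {H : Finset (G K)}
    (hH : IsHeckeCosetSystem v H) (x : G K) :
    ∑ h ∈ H, wh ψ ν D Φ (x * h)
      = ((Real.sqrt (Ideal.absNorm v.asIdeal : ℝ) : ℝ) : ℂ) * ae * wh ψ ν D Φ x := by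
  have h1 := wh_sum_rt255 hW hc hb H (fun _ => (1 : ℂ)) id x
  simp only [one_mul, id] at h1
  rw [← h1, ← wh_const_mul255]
  congr 1
  funext y
  exact hE.1 H hH y

include hW hc hb hl hg in
/-- **The Hecke relation on the torus at `v`.** -/
theorem wv_hecke255 [Fintype (𝓞 K ⧸ v.asIdeal)] {ae be : ℂ} (hE : IsHeckeEigenAt Φ v ae be)
    {π : v.adicCompletion K} (hπ : Valued.v π = WithZero.exp (-1 : ℤ))
    {a : v.adicCompletion K} (ha : a ≠ 0) :
    (∑ c : 𝓞 K ⧸ v.asIdeal, ((ψ (locAd255 v (a * rep129 v c)) : Circle) : ℂ))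
        * wh ψ ν D Φ (tv255 v (a * π) * g)
      + be * wh ψ ν D Φ (tv255 v (a * π⁻¹) * g)
      = ((Real.sqrt (Ideal.absNorm v.asIdeal : ℝ) : ℝ) : ℂ) * ae * wh ψ ν D Φ (tv255 v a * g) := by
  classical
  have hπ0 := unif_ne_zero129 v hπ
  rw [← wh_heckeSum255 hW hc hb hE (stdHecke_system255 v hπ) (tv255 v a * g)]
  rw [Finset.sum_image (fun x _ y _ h => stdHecke_injective255 v hπ h), Fintype.sum_option]
  rw [add_comm, Finset.sum_mul]
  congr 1
  · -- the class at infinity
    have e1 : tv255 v a * g * stdHecke129 v π hπ0 none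
        = tv255 v (a * π⁻¹) * g * locFin129 v (mkGL129 π 0 0 π (by simpa using hπ0)) := by
      show tv255 v a * g * locFin129 v (mkGL129 1 0 0 π (by simpa using hπ0)) = _
      rw [mul_assoc, ← locFin_comm255 v _ hg, ← mul_assoc, tv255_mul_lower v ha hπ0,
        mul_assoc, locFin_comm255 v _ hg, ← mul_assoc]
    have e3 : wh ψ ν D Φ (tv255 v (a * π⁻¹) * g
          * locFin129 v (mkGL129 π 0 0 π (by simpa using hπ0)))
        = be * wh ψ ν D Φ (tv255 v (a * π⁻¹) * g) := by
      rw [← wh_rt255 ψ ν D Φ (locFin129 v (mkGL129 π 0 0 π (by simpa using hπ0))),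
        ← wh_const_mul255]
      congr 1
      funext y
      exact hE.2 _ (isScalarUniformizerAt255 v hπ) y
    rw [e1, e3]
  · refine Finset.sum_congr rfl fun c _ => ?_
    have e2 : tv255 v a * g * stdHecke129 v π hπ0 (some c)
        = T3.unip K (locAd255 v (a * rep129 v c)) * (tv255 v (a * π) * g) := by
      show tv255 v a * g * locFin129 v (mkGL129 π (rep129 v c) 0 1 (by simpa using hπ0)) = _
      rw [mul_assoc, ← locFin_comm255 v _ hg, ← mul_assoc, tv255_mul_upper v ha hπ0,
        mul_assoc]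
    rw [e2, wh_unip_mul255 hW hl]

end Hecke

end Fermat.Agent.LT.T2.H255

end
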