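import Fermat.Agent.LT.T2.H255.WhitEquiv
import Fermat.Agent.LT.H129.HeckeExists

/-!
# Row LT, tower T2, station T2.10 (SMO): local elements at a finite place (helper255)

OFF-MAIN.  Book-keeping for `UnramTorusC` (and `CutoffC`): the local adele `locAd255 v t`, the
elements `n(locAd t)`, `diag(y, 1)` as images of `locFin129 v` (helper129, byte-identical copy),
commutation of local elements with elements trivial at `v`.
-/

set_option autoImplicit false

open IsDedekindDomain NumberField MeasureTheory AutomorphicForm
open IsDedekindDomain.HeightOneSpectrum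
open Fermat.Agent.LT.H556.A0
open scoped MatrixGroups

noncomputable section

namespace Fermat.Agent.LT.T2.H255

open Fermat.Agent.LT Fermat.Agent.LT.T2.H941 Fermat.Agent.LT.H129

variable {K : Type} [Field K] [NumberField K] (v : HeightOneSpectrum (𝓞 K))

/-! ## 1. The local adele -/

/-- The adele with component `t` at `v` and `0` elsewhere. -/
def locAd255 (t : v.adicCompletion K) : Adl K := (0, finSingle129 v false t)

theorem locAd255_fst (t : v.adicCompletion K) : (locAd255 v t).1 = 0 := rfl

theorem locAd255_same (t : v.adicCompletion K) : (locAd255 v t).2 v = t :=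
  finSingle129_same v false t

theorem locAd255_of_ne (t : v.adicCompletion K) {v' : HeightOneSpectrum (𝓞 K)} (h : v' ≠ v) :
    (locAd255 v t).2 v' = 0 := by
  have := finSingle129_of_ne v false t h
  simp only [Bool.false_eq_true, if_false] at this
  exact this

theorem isLocAdeleAt_locAd255 (t : v.adicCompletion K) : T3.IsLocAdeleAt K v (locAd255 v t) :=
  ⟨rfl, fun _ h => locAd255_of_ne v t h⟩

theorem eq_locAd255_of_isLocAdeleAt {x : Adl K} (hx : T3.IsLocAdeleAt K v x) :
    x = locAd255 v (x.2 v) := by
  apply adele_ext129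
  · intro w
    rw [hx.1]
    rfl
  · intro v'
    by_cases h : v' = v
    · subst h
      rw [locAd255_same]
    · rw [hx.2 v' h, locAd255_of_ne v _ h]

theorem locAd255_add (s t : v.adicCompletion K) :
    locAd255 v (s + t) = locAd255 v s + locAd255 v t := by
  apply adele_ext129
  · intro w
    show (0 : InfiniteAdeleRing K) w = ((0 : InfiniteAdeleRing K) + 0) w
    rw [add_zero]
  · intro v'
    by_cases h : v' = v
    · subst h
      show (locAd255 v' (s + t)).2 v' = (locAd255 v' s).2 v' + (locAd255 v' t).2 v'
      rw [locAd255_same, locAd255_same, locAd255_same]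
    · show (locAd255 v (s + t)).2 v' = (locAd255 v s).2 v' + (locAd255 v t).2 v'
      rw [locAd255_of_ne v _ h, locAd255_of_ne v _ h, locAd255_of_ne v _ h, add_zero]

/-! ## 2. Local elements of `GL₂(𝔸_K)` -/

theorem map_unipMat255 {R S : Type*} [CommRing R] [CommRing S] (f : R →+* S) (x : R) :
    (!![1, x; 0, 1] : Matrix (Fin 2) (Fin 2) R).map f = !![1, f x; 0, 1] := by
  ext i j
  fin_cases i <;> fin_cases j <;> simp

theorem map_torMat255 {R S : Type*} [CommRing R] [CommRing S] (f : R →+* S) (x : R) :
    (!![x, 0; 0, 1] : Matrix (Fin 2) (Fin 2) R).map f = !![f x, 0; 0, 1] := by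
  ext i j
  fin_cases i <;> fin_cases j <;> simp

theorem unipMat_zero255 {S : Type*} [CommRing S] :
    (!![1, 0; 0, 1] : Matrix (Fin 2) (Fin 2) S) = 1 := Matrix.one_fin_two.symm

theorem evI_locAd255 (t : v.adicCompletion K) (w : InfinitePlace K) :
    evI129 w (locAd255 v t) = 0 := rfl

theorem evF_locAd255_same (t : v.adicCompletion K) : evF129 v (locAd255 v t) = t :=
  locAd255_same v t

theorem evF_locAd255_of_ne (t : v.adicCompletion K) {v' : HeightOneSpectrum (𝓞 K)}
    (h : v' ≠ v) : evF129 v' (locAd255 v t) = 0 :=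
  locAd255_of_ne v t h

/-- `n(locAd t)` is the local embedding of the upper unipotent. -/
theorem unip_locAd255 (t : v.adicCompletion K) :
    T3.unip K (locAd255 v t) = locFin129 v (upperU129 t) := by
  apply G_ext129
  · intro w
    rw [infCompHom129_locFin129]
    apply Units.ext
    rw [coe_infCompHom129_map, coe_unip255, map_unipMat255, evI_locAd255, unipMat_zero255]
    rfl
  · intro v'
    by_cases h : v' = v
    · subst h
      rw [finCompHom129_locFin129]
      apply Units.ext
      rw [coe_finCompHom129_map, coe_unip255, map_unipMat255, evF_locAd255_same]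
      rfl
    · rw [finCompHom129_locFin129_of_ne v _ h]
      apply Units.ext
      rw [coe_finCompHom129_map, coe_unip255, map_unipMat255, evF_locAd255_of_ne v _ h,
        unipMat_zero255]
      rfl

/-- The component at `v` of an idele is not zero. -/
theorem idele_comp_ne_zero255 (y : (Adl K)ˣ) : ((y : Adl K).2 v) ≠ 0 := by
  have h : IsUnit (evF129 v (y : Adl K)) := (y.isUnit).map (evF129 v)
  exact h.ne_zero

/-- The diagonal element `diag(a, 1)` of `GL₂(K_v)`. -/
def dg255 (a : v.adicCompletion K) (ha : a ≠ 0) : GL (Fin 2) (v.adicCompletion K) :=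
  mkGL129 a 0 0 1 (by simpa using ha)

theorem coe_tor255 (y : (Adl K)ˣ) :
    ((tor y : G K) : Matrix (Fin 2) (Fin 2) (Adl K)) = !![(y : Adl K), 0; 0, 1] := rfl

/-- For an idele supported at `v`, `diag(y, 1)` is the local embedding of `diag(y_v, 1)`. -/
theorem tor_eq_locFin255 {y : (Adl K)ˣ} (hy : IsIdeleAtFin v y) :
    tor y = locFin129 v (dg255 v ((y : Adl K).2 v) (idele_comp_ne_zero255 v y)) := by
  apply G_ext129
  · intro w
    rw [infCompHom129_locFin129]
    apply Units.ext
    have h1 : evI129 w (y : Adl K) = 1 := hy.1 w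
    rw [coe_infCompHom129_map, coe_tor255, map_torMat255, h1, unipMat_zero255]
    rfl
  · intro v'
    by_cases h : v' = v
    · subst h
      rw [finCompHom129_locFin129]
      apply Units.ext
      rw [coe_finCompHom129_map, coe_tor255, map_torMat255]
      rfl
    · rw [finCompHom129_locFin129_of_ne v _ h]
      apply Units.ext
      have h1 : evF129 v' (y : Adl K) = 1 := hy.2 v' h
      rw [coe_finCompHom129_map, coe_tor255, map_torMat255, h1, unipMat_zero255]
      rfl

/-- Local elements at `v` commute with the elements which are trivial at `v`. -/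
theorem locFin_comm255 (x : GL (Fin 2) (v.adicCompletion K)) {g : G K} (hg : TrivAtFin v g) :
    locFin129 v x * g = g * locFin129 v x := by
  rw [trivAtFin_iff129] at hg
  apply G_ext129
  · intro w
    rw [map_mul, map_mul, infCompHom129_locFin129, one_mul, mul_one]
  · intro v'
    rw [map_mul, map_mul]
    by_cases h : v' = v
    · subst h
      rw [hg, one_mul, mul_one]
    · rw [finCompHom129_locFin129_of_ne v _ h, one_mul, mul_one]

theorem isIntegralAt_locFin255 (x : GL (Fin 2) (v.adicCompletion K)) :
    IsIntegralAt v (locFin129 v x) ↔ IsInt129 (v.adicCompletionIntegers K) x := by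
  rw [← isInt129_finCompHom_iff, finCompHom129_locFin129]

/-- A function which is right invariant under `GL₂(𝒪_v)` is invariant under the local embedding
of an element of `GL₂(𝒪_v)`. -/
theorem isKv_apply255 {Φ : G K → ℂ} (hΦ : IsKv v Φ) {k : GL (Fin 2) (v.adicCompletion K)}
    (hk : IsMaxCpt129 (v.adicCompletionIntegers K) k) (x : G K) :
    Φ (x * locFin129 v k) = Φ x := by
  refine hΦ (locFin129 v k) (isLocalAtFin_locFin129 v k) ?_ ?_ x
  · exact (isIntegralAt_locFin255 v k).mpr hk.1
  · rw [← map_inv]
    exact (isIntegralAt_locFin255 v _).mpr hk.2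

/-! ## 3. Matrix identities in `GL₂(K_v)` -/

section Generic

variable {F : Type*} [Field F]

theorem dg_mul_upper255 (a r p : F) (ha : a ≠ 0) (hp : p ≠ 0) :
    mkGL129 a 0 0 1 (by simpa using ha) * mkGL129 p r 0 1 (by simpa using hp)
      = upperU129 (a * r) * mkGL129 (a * p) 0 0 1 (by simpa using mul_ne_zero ha hp) := by
  apply ext_mat129
  simp only [Matrix.GeneralLinearGroup.coe_mul, coe_mkGL129, upperU129]
  ext i j
  fin_cases i <;> fin_cases j <;> simp [Matrix.mul_apply, Fin.sum_univ_two]

theorem dg_mul_lower255 (a p : F) (ha : a ≠ 0) (hp : p ≠ 0) :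
    mkGL129 a 0 0 1 (by simpa using ha) * mkGL129 1 0 0 p (by simpa using hp)
      = mkGL129 (a * p⁻¹) 0 0 1 (by simpa using mul_ne_zero ha (inv_ne_zero hp))
        * mkGL129 p 0 0 p (by simpa using hp) := by
  apply ext_mat129
  simp only [Matrix.GeneralLinearGroup.coe_mul, coe_mkGL129]
  ext i j
  fin_cases i <;> fin_cases j <;> simp [Matrix.mul_apply, Fin.sum_univ_two, hp]

theorem dg_mul_dg255 (a u : F) (ha : a ≠ 0) (hu : u ≠ 0) :
    mkGL129 (a * u) 0 0 1 (by simpa using mul_ne_zero ha hu)
      = mkGL129 a 0 0 1 (by simpa using ha) * mkGL129 u 0 0 1 (by simpa using hu) := by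
  apply ext_mat129
  simp only [Matrix.GeneralLinearGroup.coe_mul, coe_mkGL129]
  ext i j
  fin_cases i <;> fin_cases j <;> simp [Matrix.mul_apply, Fin.sum_univ_two]

theorem dg_mul_upperU255 (a u : F) (ha : a ≠ 0) :
    mkGL129 a 0 0 1 (by simpa using ha) * upperU129 u
      = upperU129 (a * u) * mkGL129 a 0 0 1 (by simpa using ha) := by
  apply ext_mat129
  simp only [Matrix.GeneralLinearGroup.coe_mul, coe_mkGL129, upperU129]
  ext i j
  fin_cases i <;> fin_cases j <;> simp [Matrix.mul_apply, Fin.sum_univ_two]

end Generic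

end Fermat.Agent.LT.T2.H255

end
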