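import Fermat.Agent.LT.T2.H941.SmoSpec

/-!
# Row LT, tower T2, station T2.10 (SMO): the Whittaker coefficient, basic calculus (helper255)

OFF-MAIN.  Shared asset for the leaves `UnramTorusC`, `CutoffC`, `WhitDetC`, `ExtendC` of
`LT/T2/H941/SmoSpec.lean` (helper941, byte-identical copy).  Everything is stated with the
vocabulary of that file (`wh`, `IsWhitData`, `T3.unip`, `T1.ratG`).

* `wh_unip_mul255` : `W_Φ(n(s) x) = ψ(s) W_Φ(x)` for `Φ` left invariant under `GL₂(K)`
  (translation of the fundamental domain; two fundamental domains give the same integral);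
* `integrableOn_whIntegrand255` : the integrand of `wh` is integrable on `D` for `Φ` bounded and
  continuous;
* `wh_sum255`, `wh_const_mul255`, `wh_rt255` : linearity and right translations.
-/

set_option autoImplicit false

open IsDedekindDomain NumberField MeasureTheory AutomorphicForm
open Fermat.Agent.LT.H556.A0
open scoped MatrixGroups Pointwise

noncomputable section

namespace Fermat.Agent.LT.T2.H255

open Fermat.Agent.LT Fermat.Agent.LT.T2.H941

variable {K : Type} [Field K] [NumberField K]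

/-! ## 1. Countability -/

/-- A number field is countable. -/
theorem countable_numberField255 (K : Type) [Field K] [NumberField K] : Countable K := by
  have e := (Module.finBasis ℚ K).equivFun
  exact e.toEquiv.injective.countable

/-- The principal adeles are countable. -/
theorem countable_princ255 (K : Type) [Field K] [NumberField K] : Countable (T1.princ K) := by
  haveI := countable_numberField255 K
  have h : Function.Surjective
      (fun ξ : K => (⟨algebraMap K (Adl K) ξ, ⟨ξ, rfl⟩⟩ : T1.princ K)) := by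
    rintro ⟨x, ξ, rfl⟩
    exact ⟨ξ, rfl⟩
  exact h.countable

/-! ## 2. Unipotent elements -/

theorem coe_unip255 (s : Adl K) :
    ((T3.unip K s : G K) : Matrix (Fin 2) (Fin 2) (Adl K)) = !![1, s; 0, 1] := rfl

theorem unip_add255 (s t : Adl K) : T3.unip K (s + t) = T3.unip K s * T3.unip K t := by
  apply Units.ext
  rw [Units.val_mul, coe_unip255, coe_unip255, coe_unip255]
  ext i j
  fin_cases i <;> fin_cases j <;> simp [Matrix.mul_apply, Fin.sum_univ_two, add_comm]

theorem unip_zero255 : T3.unip K (0 : Adl K) = 1 := by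
  apply Units.ext
  rw [coe_unip255]
  ext i j
  fin_cases i <;> fin_cases j <;> simp

/-- The rational unipotent element `[[1, ξ], [0, 1]]`. -/
def unipRat255 (ξ : K) : GL (Fin 2) K :=
  ⟨!![1, ξ; 0, 1], !![1, -ξ; 0, 1],
    by ext i j; fin_cases i <;> fin_cases j <;> simp [Matrix.mul_apply, Fin.sum_univ_two],
    by ext i j; fin_cases i <;> fin_cases j <;> simp [Matrix.mul_apply, Fin.sum_univ_two]⟩

theorem ratG_unipRat255 (ξ : K) :
    T1.ratG K (unipRat255 ξ) = T3.unip K (algebraMap K (Adl K) ξ) := by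
  apply Units.ext
  rw [coe_unip255]
  ext i j
  fin_cases i <;> fin_cases j <;>
    simp [T1.ratG, unipRat255, Matrix.GeneralLinearGroup.map]

/-- `t ↦ n(t)` is continuous. -/
theorem continuous_unip255 : Continuous (fun t : Adl K => T3.unip K t) := by
  rw [Units.continuous_iff]
  constructor
  · show Continuous fun t : Adl K => (!![1, t; 0, 1] : Matrix (Fin 2) (Fin 2) (Adl K))
    refine continuous_matrix fun i j => ?_
    fin_cases i <;> fin_cases j <;> simp <;> fun_prop
  · show Continuous fun t : Adl K => (!![1, -t; 0, 1] : Matrix (Fin 2) (Fin 2) (Adl K))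
    refine continuous_matrix fun i j => ?_
    fin_cases i <;> fin_cases j <;> simp <;> fun_prop

/-! ## 3. The integrand -/

/-- The integrand of the Whittaker coefficient. -/
def whInt255 (ψ : AddChar (Adl K) Circle) (Φ : G K → ℂ) (x : G K) (t : Adl K) : ℂ :=
  Φ (T3.unip K t * x) * (starRingEnd ℂ) ((ψ t : Circle) : ℂ)

theorem wh_eq255 (ψ : AddChar (Adl K) Circle) {m : MeasurableSpace (Adl K)}
    (ν : Measure (Adl K)) (D : Set (Adl K)) (Φ : G K → ℂ) (x : G K) :
    wh ψ ν D Φ x = ∫ t in D, whInt255 ψ Φ x t ∂ν := rfl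

theorem norm_psi255 (ψ : AddChar (Adl K) Circle) (t : Adl K) : ‖((ψ t : Circle) : ℂ)‖ = 1 :=
  Circle.norm_coe _

theorem conj_psi_mul255 (ψ : AddChar (Adl K) Circle) (t : Adl K) :
    (starRingEnd ℂ) ((ψ t : Circle) : ℂ) * ((ψ t : Circle) : ℂ) = 1 := by
  rw [mul_comm, Complex.mul_conj, Complex.normSq_eq_norm_sq, norm_psi255]
  simp

theorem psi_add255 (ψ : AddChar (Adl K) Circle) (s t : Adl K) :
    ((ψ (s + t) : Circle) : ℂ) = ((ψ s : Circle) : ℂ) * ((ψ t : Circle) : ℂ) := by
  rw [AddChar.map_add_eq_mul, Circle.coe_mul]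

/-- The integrand is periodic under `K` when `Φ` is left invariant under `GL₂(K)` and `ψ` is
trivial on `K`. -/
theorem whInt_add_rat255 {ψ : AddChar (Adl K) Circle} (hψ : T3.IsStdChar K ψ) {Φ : G K → ℂ}
    (hl : ∀ (γ : GL (Fin 2) K) (g : G K), Φ (T1.ratG K γ * g) = Φ g) (x : G K) (ξ : K)
    (t : Adl K) : whInt255 ψ Φ x (algebraMap K (Adl K) ξ + t) = whInt255 ψ Φ x t := by
  unfold whInt255
  rw [unip_add255, mul_assoc, ← ratG_unipRat255, hl, psi_add255]
  have h1 : ψ (algebraMap K (Adl K) ξ) = 1 := hψ.triv ξ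
  rw [h1]
  simp

/-- Shifting the variable of the integrand. -/
theorem whInt_shift255 (ψ : AddChar (Adl K) Circle) (Φ : G K → ℂ) (x : G K) (s t : Adl K) :
    whInt255 ψ Φ (T3.unip K s * x) t = ((ψ s : Circle) : ℂ) * whInt255 ψ Φ x (s + t) := by
  unfold whInt255
  rw [← mul_assoc, ← unip_add255, add_comm t s, psi_add255, map_mul]
  have := conj_psi_mul255 ψ s
  calc Φ (T3.unip K (s + t) * x) * (starRingEnd ℂ) ((ψ t : Circle) : ℂ)
      = Φ (T3.unip K (s + t) * x) * (((starRingEnd ℂ) ((ψ s : Circle) : ℂ) * ((ψ s : Circle) : ℂ))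
          * (starRingEnd ℂ) ((ψ t : Circle) : ℂ)) := by rw [this, one_mul]
    _ = _ := by ring

/-! ## 4. Equivariance of the Whittaker coefficient -/

/-- The Borel σ-algebra of the adeles (the one of `SmoSpec`). -/
local instance borelAdl255 : MeasurableSpace (Adl K) := borel (Adl K)

local instance borelSpaceAdl255 : BorelSpace (Adl K) := ⟨rfl⟩

/-- **Equivariance**: `W_Φ(n(s) x) = ψ(s) W_Φ(x)`. -/
theorem wh_unip_mul255 {ψ : AddChar (Adl K) Circle} {ν : Measure (Adl K)} {D : Set (Adl K)}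
    (h : IsWhitData ψ ν D) {Φ : G K → ℂ}
    (hl : ∀ (γ : GL (Fin 2) K) (g : G K), Φ (T1.ratG K γ * g) = Φ g) (s : Adl K) (x : G K) :
    wh ψ ν D Φ (T3.unip K s * x) = ((ψ s : Circle) : ℂ) * wh ψ ν D Φ x := by
  obtain ⟨hψ, -, -, hν, -, hD, -⟩ := h
  haveI := hν
  haveI := countable_princ255 K
  rw [wh_eq255, wh_eq255]
  simp_rw [whInt_shift255]
  rw [MeasureTheory.integral_const_mul]
  congr 1
  have hD' : IsAddFundamentalDomain (T1.princ K) (s +ᵥ D) ν := hD.vadd_of_comm s
  have himg : ∫ y in (fun t => s + t) '' D, whInt255 ψ Φ x y ∂ν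
      = ∫ t in D, whInt255 ψ Φ x (s + t) ∂ν :=
    (measurePreserving_add_left ν s).setIntegral_image_emb (measurableEmbedding_addLeft s) _ D
  rw [← himg]
  have hset : (fun t => s + t) '' D = s +ᵥ D := by
    ext y
    rw [Set.mem_vadd_set]
    simp only [Set.mem_image, vadd_eq_add]
  rw [hset]
  refine hD'.setIntegral_eq hD ?_
  rintro ⟨a, ξ, rfl⟩ t
  exact whInt_add_rat255 hψ hl x ξ t

/-! ## 5. Integrability and linearity -/

theorem continuous_whInt255 {ψ : AddChar (Adl K) Circle} (hψ : T3.IsStdChar K ψ) {Φ : G K → ℂ}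
    (hc : Continuous Φ) (x : G K) : Continuous (whInt255 ψ Φ x) := by
  unfold whInt255
  refine Continuous.mul ?_ ?_
  · exact hc.comp ((continuous_unip255).mul continuous_const)
  · exact Complex.continuous_conj.comp (continuous_subtype_val.comp hψ.cont)

theorem norm_whInt_le255 (ψ : AddChar (Adl K) Circle) {Φ : G K → ℂ} {C : ℝ}
    (hb : ∀ g : G K, ‖Φ g‖ ≤ C) (x : G K) (t : Adl K) : ‖whInt255 ψ Φ x t‖ ≤ C := by
  unfold whInt255
  rw [norm_mul, RCLike.norm_conj, norm_psi255, mul_one]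
  exact hb _

/-- The integrand of `wh` is integrable on `D`. -/
theorem integrableOn_whInt255 {ψ : AddChar (Adl K) Circle} {ν : Measure (Adl K)}
    {D : Set (Adl K)} (h : IsWhitData ψ ν D) {Φ : G K → ℂ} (hc : Continuous Φ)
    (hb : ∃ C : ℝ, ∀ g : G K, ‖Φ g‖ ≤ C) (x : G K) :
    IntegrableOn (whInt255 ψ Φ x) D ν := by
  obtain ⟨hψ, -, -, -, -, -, hfin⟩ := h
  obtain ⟨C, hC⟩ := hb
  have hm : AEStronglyMeasurable (whInt255 ψ Φ x) (ν.restrict D) :=
    (continuous_whInt255 hψ hc x).aestronglyMeasurable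
  haveI : IsFiniteMeasure (ν.restrict D) := ⟨by rw [Measure.restrict_apply_univ]; exact hfin⟩
  exact Integrable.of_bound hm C (Filter.Eventually.of_forall fun t => norm_whInt_le255 ψ hC x t)

/-- Right translations. -/
theorem wh_rt255 (ψ : AddChar (Adl K) Circle) (ν : Measure (Adl K)) (D : Set (Adl K))
    (Φ : G K → ℂ) (g x : G K) : wh ψ ν D (rt g Φ) x = wh ψ ν D Φ (x * g) := by
  unfold wh rt
  simp only [mul_assoc]

/-- Scalars. -/
theorem wh_const_mul255 (ψ : AddChar (Adl K) Circle) (ν : Measure (Adl K)) (D : Set (Adl K))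
    (c : ℂ) (Φ : G K → ℂ) (x : G K) :
    wh ψ ν D (fun y => c * Φ y) x = c * wh ψ ν D Φ x := by
  unfold wh
  simp only [mul_assoc]
  exact MeasureTheory.integral_const_mul _ _

/-- Finite sums of right translates. -/
theorem wh_sum_rt255 {ψ : AddChar (Adl K) Circle} {ν : Measure (Adl K)} {D : Set (Adl K)}
    (h : IsWhitData ψ ν D) {Φ : G K → ℂ} (hc : Continuous Φ)
    (hb : ∃ C : ℝ, ∀ g : G K, ‖Φ g‖ ≤ C) {ι : Type} (s : Finset ι) (c : ι → ℂ) (g : ι → G K)
    (x : G K) :
    wh ψ ν D (fun y => ∑ i ∈ s, c i * Φ (y * g i)) x = ∑ i ∈ s, c i * wh ψ ν D Φ (x * g i) := by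
  have hint : ∀ i ∈ s, Integrable (fun t => c i * whInt255 ψ Φ (x * g i) t) (ν.restrict D) :=
    fun i _ => (integrableOn_whInt255 h hc hb (x * g i)).const_mul (c i)
  calc wh ψ ν D (fun y => ∑ i ∈ s, c i * Φ (y * g i)) x
      = ∫ t in D, ∑ i ∈ s, c i * whInt255 ψ Φ (x * g i) t ∂ν := by
        unfold wh whInt255
        congr 1
        funext t
        rw [Finset.sum_mul]
        refine Finset.sum_congr rfl fun i _ => ?_
        rw [mul_assoc, mul_assoc]
    _ = ∑ i ∈ s, ∫ t in D, c i * whInt255 ψ Φ (x * g i) t ∂ν :=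
        MeasureTheory.integral_finsetSum s hint
    _ = ∑ i ∈ s, c i * wh ψ ν D Φ (x * g i) := by
        refine Finset.sum_congr rfl fun i _ => ?_
        rw [MeasureTheory.integral_const_mul, wh_eq255]

/-- The Whittaker coefficient of `lin`. -/
theorem wh_lin255 {ψ : AddChar (Adl K) Circle} {ν : Measure (Adl K)} {D : Set (Adl K)}
    (h : IsWhitData ψ ν D) {Φ : G K → ℂ} (hc : Continuous Φ)
    (hb : ∃ C : ℝ, ∀ g : G K, ‖Φ g‖ ≤ C) {n : ℕ} (c : Fin n → ℂ) (g : Fin n → G K) (x : G K) :
    wh ψ ν D (lin c g Φ) x = ∑ i, c i * wh ψ ν D Φ (x * g i) :=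
  wh_sum_rt255 h hc hb Finset.univ c g x

end Fermat.Agent.LT.T2.H255

end
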